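import Fermat.Agent.S14.H937.Ram
import Fermat.Agent.S17.H140.InertiaFinite
import Fermat.Agent.S55.Bridge.H594.Unram

/-!
# S56 / FLAT-O, leaf FO-VG (helper66): valuation inputs, part 0

`vg0` : an element of `ℚ̄` fixed by the inertia group of `A | p` has `A`-valuation in `v(p)^ℤ`
("the inertia field is unramified").
-/

set_option autoImplicit false
set_option linter.style.haveILetI false

open NumberField IsDedekindDomain
open scoped Pointwise

namespace Fermat.Agent.S56.H66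

local notation "Qb" => AlgebraicClosure ℚ
local notation "GQ" => (AlgebraicClosure ℚ ≃ₐ[ℚ] AlgebraicClosure ℚ)

/-- A finite Galois extension of `ℚ` inside `ℚ̄` containing a given element. -/
theorem exists_finite_galois_mem (a : Qb) :
    ∃ F : IntermediateField ℚ Qb, FiniteDimensional ℚ F ∧ IsGalois ℚ F ∧ a ∈ F := by
  have halg : IsAlgebraic ℚ a := (AlgebraicClosure.isAlgebraic ℚ).isAlgebraic a
  haveI : FiniteDimensional ℚ (IntermediateField.adjoin ℚ {a}) :=
    IntermediateField.adjoin.finiteDimensional halg.isIntegral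
  haveI : Algebra.IsAlgebraic ℚ Qb := AlgebraicClosure.isAlgebraic ℚ
  haveI : IsAlgClosure ℚ Qb := ⟨inferInstance, inferInstance⟩
  haveI : Normal ℚ Qb := IsAlgClosure.normal ℚ Qb
  refine ⟨IntermediateField.normalClosure ℚ (IntermediateField.adjoin ℚ {a}) Qb,
    inferInstance, ?_, ?_⟩
  · haveI : Normal ℚ (IntermediateField.normalClosure ℚ (IntermediateField.adjoin ℚ {a}) Qb) :=
      normalClosure.normal ℚ (IntermediateField.adjoin ℚ {a}) Qb
    exact ⟨⟩
  · exact (IntermediateField.le_normalClosure _) (IntermediateField.mem_adjoin_simple_self ℚ a)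

/-- Finite-level core of `vg0`: `F/ℚ` finite Galois inside `ℚ̄`, `x ∈ F` fixed by the inertia
group (in `Gal(F/ℚ)`) of the prime of `𝓞 F` below `A`.  Then `v_A(x) ∈ v_A(p)^ℤ`. -/
theorem vg0_finite (p : ℕ) (hp : p.Prime) (A : ValuationSubring Qb) (hA : A.LiesOverPrime p)
    (F : IntermediateField ℚ Qb) [FiniteDimensional ℚ F] [IsGalois ℚ F]
    (x : F) (hx0 : x ≠ 0)
    (hfix : ∀ τ ∈ (Fermat.Agent.S55.Bridge.H594.primeBelowF F A).inertia (F ≃ₐ[ℚ] F), τ x = x) :
    ∃ n : ℤ, A.valuation (x : Qb) = A.valuation (p : Qb) ^ n := by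
  classical
  haveI : NumberField F := Fermat.Agent.S55.Bridge.H594.numberField_of_finite F
  set P : Ideal (𝓞 F) := Fermat.Agent.S55.Bridge.H594.primeBelowF F A with hP
  haveI hPprime : P.IsPrime := Fermat.Agent.S55.Bridge.H594.primeBelowF_isPrime F A
  have hpP : ((p : ℕ) : 𝓞 F) ∈ P := Fermat.Agent.S55.Bridge.H594.natCast_mem_primeBelowF F A hA
  have hPne : P ≠ ⊥ := by
    intro h
    rw [h, Ideal.mem_bot] at hpP
    exact (by exact_mod_cast hp.ne_zero : ((p : ℕ) : 𝓞 F) ≠ 0) hpP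
  haveI hPmax : P.IsMaximal := Ring.DimensionLEOne.maximalOfPrime hPne hPprime
  -- the inertia field
  let K : IntermediateField ℚ F := IntermediateField.fixedField (P.inertia (F ≃ₐ[ℚ] F))
  have hxK : x ∈ K := by
    rw [IntermediateField.mem_fixedField_iff]
    intro τ hτ
    exact hfix τ hτ
  have he : (P.under (𝓞 K)).ramificationIdx ℤ = 1 := by
    apply Fermat.Agent.S17.H140.ramificationIdx_under_eq_one F K P
    intro σ hσ a ha
    exact (IntermediateField.mem_fixedField_iff _ a).mp ha σ hσ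
  -- `K` as a number field with an algebra map to `ℚ̄`
  letI algK : Algebra K Qb := ((algebraMap F Qb).comp (algebraMap K F)).toAlgebra
  have halgK : ∀ y : K, algebraMap K Qb y = (((y : F)) : Qb) := fun y => rfl
  set Q : Ideal (𝓞 K) := P.under (𝓞 K) with hQ
  haveI hQprime : Q.IsPrime := Ideal.IsPrime.under (𝓞 K) P
  have hmemQ : ∀ y : 𝓞 K, y ∈ Q ↔ (((y : K) : F) : Qb) ∈ A.nonunits := by
    intro y
    rw [hQ, Ideal.under_def, Ideal.mem_comap, hP, Fermat.Agent.S55.Bridge.H594.mem_primeBelowF]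
    rfl
  have hpQ : ((p : ℕ) : 𝓞 K) ∈ Q := by
    rw [hmemQ]
    have hA' : (p : Qb) ∈ A.nonunits := hA
    simpa using hA'
  have hQne : Q ≠ ⊥ := by
    intro h
    rw [h, Ideal.mem_bot] at hpQ
    exact (by exact_mod_cast hp.ne_zero : ((p : ℕ) : 𝓞 K) ≠ 0) hpQ
  let w : HeightOneSpectrum (𝓞 K) := ⟨Q, hQprime, hQne⟩
  have hw : w.asIdeal = Fermat.Agent.S14.H937.primeOf K A := by
    ext y
    rw [Fermat.Agent.S14.H937.mem_primeOf]
    exact hmemQ y
  -- the prime of `ℤ` below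
  set q : Ideal ℤ := Q.under ℤ with hq
  haveI hqprime : q.IsPrime := Ideal.IsPrime.under ℤ Q
  have hpq : (p : ℤ) ∈ q := by
    rw [hq, Ideal.under_def, Ideal.mem_comap]
    simpa using hpQ
  have hqspan : q = Ideal.span {(p : ℤ)} := by
    have hmax : (Ideal.span {(p : ℤ)}).IsMaximal :=
      PrincipalIdealRing.isMaximal_of_irreducible
        (Nat.prime_iff_prime_int.mp hp).irreducible
    have hle : Ideal.span {(p : ℤ)} ≤ q := (Ideal.span_singleton_le_iff_mem q).mpr hpq
    exact (hmax.eq_of_le hqprime.ne_top hle).symm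
  have hqne : q ≠ ⊥ := by
    rw [hqspan]
    simp [hp.ne_zero]
  let v : HeightOneSpectrum ℤ := ⟨q, hqprime, hqne⟩
  haveI hlies : w.asIdeal.LiesOver v.asIdeal := ⟨rfl⟩
  have he' : v.asIdeal.ramificationIdx' w.asIdeal = 1 := by
    rw [Ideal.ramificationIdx'_eq_ramificationIdx v.asIdeal w.asIdeal hqne]
    exact he
  have hvp : v.valuation ℚ (algebraMap ℤ ℚ (p : ℤ)) = WithZero.exp (-1 : ℤ) := by
    rw [HeightOneSpectrum.valuation_of_algebraMap]
    exact v.intValuation_singleton (by exact_mod_cast hp.ne_zero) hqspan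
  have hwp : w.valuation K ((p : ℕ) : K) = WithZero.exp (-1 : ℤ) := by
    have h1 := HeightOneSpectrum.valuation_liesOver K v w (algebraMap ℤ ℚ (p : ℤ))
    rw [he', pow_one, hvp] at h1
    rw [h1]
    congr 1
  -- the element
  let xK : K := ⟨x, hxK⟩
  have hxK0 : xK ≠ 0 := by
    intro h
    apply hx0
    have := congrArg (fun y : K => (y : F)) h
    simpa [xK] using this
  have hwx : w.valuation K xK ≠ 0 := (Valuation.ne_zero_iff _).mpr hxK0
  obtain ⟨m, hm⟩ : ∃ m : ℤ, w.valuation K xK = WithZero.exp m :=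
    ⟨WithZero.log _, (WithZero.exp_log hwx).symm⟩
  refine ⟨-m, ?_⟩
  have hpK0 : ((p : ℕ) : K) ≠ 0 := by exact_mod_cast hp.ne_zero
  have h2 : w.valuation K (xK / ((p : ℕ) : K) ^ (-m)) = 1 := by
    rw [map_div₀, map_zpow₀, hwp, hm, ← WithZero.exp_zsmul]
    simp
  have h3 := Fermat.Agent.S14.H937.valuation_eq_one_of K A w hw _ h2
  have h4 : algebraMap K Qb (xK / ((p : ℕ) : K) ^ (-m)) = (x : Qb) / (p : Qb) ^ (-m) := by
    rw [map_div₀, map_zpow₀, map_natCast]
    rfl
  rw [h4, map_div₀, map_zpow₀] at h3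
  have hpv : A.valuation (p : Qb) ^ (-m) ≠ 0 := by
    apply zpow_ne_zero
    rw [Valuation.ne_zero_iff]
    exact_mod_cast hp.ne_zero
  exact (div_eq_one_iff_eq hpv).mp h3

/-- **(VG0)** An element of `ℚ̄` fixed by the inertia group of `A | p` has `A`-valuation in
`v(p)^ℤ` (the inertia field is unramified). -/
theorem vg0 (p : ℕ) (hp : p.Prime) (A : ValuationSubring Qb) (hA : A.LiesOverPrime p)
    (a : Qb) (ha : a ≠ 0) (hfix : ∀ σ ∈ A.inertiaSubgroupIn ℚ, σ a = a) :
    ∃ n : ℤ, A.valuation a = A.valuation (p : Qb) ^ n := by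
  obtain ⟨F, hFfin, hFgal, haF⟩ := exists_finite_galois_mem a
  haveI := hFfin
  haveI := hFgal
  have h := vg0_finite p hp A hA F ⟨a, haF⟩ (fun h0 => ha (congrArg Subtype.val h0)) ?_
  · exact h
  · intro τ hτ
    rw [← Fermat.Agent.S55.Bridge.H594.map_inertiaSubgroupIn_eq F A hp hA] at hτ
    obtain ⟨σ, hσ, rfl⟩ := hτ
    apply Subtype.ext
    rw [Fermat.Agent.S55.Bridge.H594.restrictNormalHom_apply]
    exact hfix σ hσ

/-- (VG0), integral form: a non-unit of `A` fixed by inertia is divisible by `p` in `A`: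
`v(a) ≤ v(p)`. -/
theorem vg0_le (p : ℕ) (hp : p.Prime) (A : ValuationSubring Qb) (hA : A.LiesOverPrime p)
    (a : Qb) (ha : a ∈ A.nonunits) (hfix : ∀ σ ∈ A.inertiaSubgroupIn ℚ, σ a = a) :
    A.valuation a ≤ A.valuation (p : Qb) := by
  rcases eq_or_ne a 0 with rfl | ha0
  · simp
  obtain ⟨n, hn⟩ := vg0 p hp A hA a ha0 hfix
  have hpv : A.valuation (p : Qb) < 1 := (A.mem_nonunits_iff).mp hA
  have hp0 : A.valuation (p : Qb) ≠ 0 := by
    rw [Valuation.ne_zero_iff]
    exact_mod_cast hp.ne_zero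
  have hav : A.valuation a < 1 := (A.mem_nonunits_iff).mp ha
  rw [hn] at hav ⊢
  -- `v(p)^n < 1` with `v(p) < 1` forces `n ≥ 1`
  have hn1 : 1 ≤ n := by
    by_contra hcon
    push Not at hcon
    have hn0 : n ≤ 0 := by omega
    have : 1 ≤ A.valuation (p : Qb) ^ n := by
      obtain ⟨k, rfl⟩ : ∃ k : ℕ, n = -(k : ℤ) := ⟨(-n).toNat, by omega⟩
      rw [zpow_neg, zpow_natCast]
      exact (one_le_inv₀ (pow_pos (zero_lt_iff.mpr hp0) k)).mpr (pow_le_one₀ zero_le hpv.le)
    exact absurd hav (not_lt.mpr this)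
  obtain ⟨k, rfl⟩ : ∃ k : ℕ, n = (k : ℤ) + 1 := ⟨(n - 1).toNat, by omega⟩
  rw [zpow_add_one₀ hp0, zpow_natCast]
  calc A.valuation (p : Qb) ^ k * A.valuation (p : Qb)
      ≤ 1 * A.valuation (p : Qb) := by
        gcongr
        exact pow_le_one₀ zero_le hpv.le
    _ = A.valuation (p : Qb) := one_mul _

end Fermat.Agent.S56.H66
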