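import Fermat.Agent.S56.H66.VG1

/-!
# S56 / FLAT-O, leaf FO-VG (helper66): valuation inputs, part 2

* `arch` (ARCH): for `c ≠ 0` in `ℚ̄` there is `N` with `v(p)^N ≤ v(c)`;
* `vg1_le`: a non-unit of `A` fixed by `I₁` has valuation `≤ v(ζ - 1)`;
* `vg1_mem`: such an element is `(ζ - 1) · b` with `b ∈ A`;
* `vg0_mem`: a non-unit of `A` fixed by `I` is `p · b` with `b ∈ A`.
-/

set_option autoImplicit false
set_option linter.style.haveILetI false

open scoped Pointwise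

namespace Fermat.Agent.S56.H66

open Polynomial Fermat.Agent.S14.H894

local notation "Qb" => AlgebraicClosure ℚ
local notation "GQ" => (AlgebraicClosure ℚ ≃ₐ[ℚ] AlgebraicClosure ℚ)

section

variable (A : ValuationSubring Qb) (p : ℕ) (hp : p.Prime) (hA : A.LiesOverPrime p)
  (ζ : Qb) (hζ : IsPrimitiveRoot ζ p)

include hp hA in
/-- **(ARCH)** The valuation of a nonzero algebraic number is bounded below by a power of
`v(p)`. -/
theorem arch (c : Qb) (hc : c ≠ 0) : ∃ N : ℕ, A.valuation (p : Qb) ^ N ≤ A.valuation c := by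
  have halg : IsAlgebraic ℤ c⁻¹ :=
    (IsFractionRing.isAlgebraic_iff ℤ ℚ Qb).mpr
      ((AlgebraicClosure.isAlgebraic ℚ).isAlgebraic c⁻¹)
  obtain ⟨d, hd0, hd⟩ := halg.exists_integral_multiple
  have hmem : d • c⁻¹ ∈ A := Fermat.Agent.S54.isIntegral_mem_valuationSubring A hd
  have hle : A.valuation (d • c⁻¹) ≤ 1 := (A.valuation_le_one_iff _).mpr hmem
  have hdn : d.natAbs ≠ 0 := Int.natAbs_ne_zero.mpr hd0
  obtain ⟨N, hN⟩ := exists_pow_valuation_nat A p hp hA d.natAbs hdn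
  have hvd : A.valuation ((d : ℤ) : Qb) = A.valuation (p : Qb) ^ N := by
    rw [← hN]
    rcases Int.natAbs_eq d with h | h
    · conv_lhs => rw [h]
      simp
    · conv_lhs => rw [h]
      simp
  refine ⟨N, ?_⟩
  have hcv : A.valuation c ≠ 0 := (Valuation.ne_zero_iff _).mpr hc
  rw [zsmul_eq_mul, map_mul, map_inv₀, hvd] at hle
  have := (mul_inv_le_iff₀ (zero_lt_iff.mpr hcv)).mp hle
  simpa using this

include hp hA hζ in
/-- (VG1), integral form: a non-unit of `A` fixed by `I₁` has valuation `≤ v(ζ - 1)`. -/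
theorem vg1_le (a : Qb) (ha : a ∈ A.nonunits)
    (hfix : ∀ σ ∈ A.inertiaSubgroupIn ℚ, σ ζ = ζ → σ a = a) :
    A.valuation a ≤ A.valuation (ζ - 1) := by
  rcases eq_or_ne a 0 with rfl | ha0
  · simp
  obtain ⟨n, hn⟩ := vg1 A p hp hA ζ hζ a ha0 hfix
  have hπ0 := valuation_zeta_sub_one_ne_zero A p hp ζ hζ
  have hπ1 := valuation_zeta_sub_one_lt_one A p hp hA ζ hζ
  have hav : A.valuation a < 1 := (A.mem_nonunits_iff).mp ha
  rw [hn] at hav ⊢
  have hn1 : 1 ≤ n := by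
    by_contra hcon
    push Not at hcon
    have hn0 : n ≤ 0 := by omega
    have : 1 ≤ A.valuation (ζ - 1) ^ n := by
      obtain ⟨k, rfl⟩ : ∃ k : ℕ, n = -(k : ℤ) := ⟨(-n).toNat, by omega⟩
      rw [zpow_neg, zpow_natCast]
      exact (one_le_inv₀ (pow_pos (zero_lt_iff.mpr hπ0) k)).mpr (pow_le_one₀ zero_le hπ1.le)
    exact absurd hav (not_lt.mpr this)
  obtain ⟨k, rfl⟩ : ∃ k : ℕ, n = (k : ℤ) + 1 := ⟨(n - 1).toNat, by omega⟩
  rw [zpow_add_one₀ hπ0, zpow_natCast]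
  calc A.valuation (ζ - 1) ^ k * A.valuation (ζ - 1)
      ≤ 1 * A.valuation (ζ - 1) := by
        gcongr
        exact pow_le_one₀ zero_le hπ1.le
    _ = A.valuation (ζ - 1) := one_mul _

/-- `v(a) ≤ v(b)`, `b ≠ 0` ⇒ `a = b * c` with `c ∈ A`. -/
theorem exists_mul_of_valuation_le {a b : Qb} (hb : b ≠ 0)
    (h : A.valuation a ≤ A.valuation b) : ∃ c ∈ A, a = b * c := by
  refine ⟨a / b, ?_, by field_simp⟩
  rw [← A.valuation_le_one_iff, map_div₀]
  exact div_le_one_of_le₀ h zero_le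

include hp hA hζ in
/-- (VG1), divisibility form. -/
theorem vg1_mem (a : Qb) (ha : a ∈ A.nonunits)
    (hfix : ∀ σ ∈ A.inertiaSubgroupIn ℚ, σ ζ = ζ → σ a = a) :
    ∃ c ∈ A, a = (ζ - 1) * c :=
  exists_mul_of_valuation_le A (sub_ne_zero.mpr (hζ.ne_one hp.one_lt))
    (vg1_le A p hp hA ζ hζ a ha hfix)

include hp hA in
/-- (VG0), divisibility form. -/
theorem vg0_mem (a : Qb) (ha : a ∈ A.nonunits)
    (hfix : ∀ σ ∈ A.inertiaSubgroupIn ℚ, σ a = a) :
    ∃ c ∈ A, a = (p : Qb) * c :=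
  exists_mul_of_valuation_le A (by exact_mod_cast hp.ne_zero) (vg0_le p hp A hA a ha hfix)

end

end Fermat.Agent.S56.H66
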