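import Fermat.Agent.S56.H906.FlatOSpec
import Fermat.Agent.S56.H66.VGArch

/-!
# S56 / FLAT-O, leaf UNR (helper66)

`unrVal : Fermat.Agent.S56.H906.UnrValStatement` — the inertia field is unramified
(verbatim statement of `H906/FlatOSpec.lean`), from `vg0`.
-/

set_option autoImplicit false

namespace Fermat.Agent.S56.H66

/-- **(UNR)** of `H906/FlatOSpec.lean`. -/
theorem unrVal : Fermat.Agent.S56.H906.UnrValStatement :=
  fun p hp P hP y hy hfix => vg0 p hp P hP y hy hfix

end Fermat.Agent.S56.H66
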