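import Fermat.Agent.S56.FO.H6.CE
import Fermat.Agent.S56.H66.VGArch

/-!
# S56 / FLAT-O, leaves VG1 and CE closed (helper66)

* `unrVal1 : FO.H6.UnrVal1Statement` (VERBATIM): a non-unit of `ℚ̄` fixed by
  `{σ ∈ I_P : σ ζ = ζ}` has valuation `≤ v(ζ - 1)`  (= `H66.vg1_le`).
* `connEt : FO.H6.ConnEtStatement` (VERBATIM, unconditional): the kernel of reduction of a Hopf
  lattice killed by `p` is contained in the augmentation subgroup of inertia
  (`FO.H6.connEt_of` of helper6 applied to `unrVal1`).
-/

set_option autoImplicit false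

namespace Fermat.Agent.S56.H66

/-- **(VG1)**, the frozen form of helper6. -/
theorem unrVal1 : Fermat.Agent.S56.FO.H6.UnrVal1Statement := by
  intro p hp P hP ζ hζ y hfix hy
  exact vg1_le P p hp hP ζ hζ y ((P.mem_nonunits_iff).mpr hy) hfix

/-- **(CE)**, unconditional. -/
theorem connEt : Fermat.Agent.S56.FO.H6.ConnEtStatement :=
  Fermat.Agent.S56.FO.H6.connEt_of unrVal1

end Fermat.Agent.S56.H66
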