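import Fermat.Agent.S56.H906.LemmaA
import Fermat.Agent.S56.H66.VGArch

/-!
# S56 / FLAT-O, leaf FT (helper66): Raynaud's tame characters, level one

`flatTame : H906.FlatTameStatement`: if the inertia group at `P | p` (`p` odd) acts on a point
`x ≠ 0` of a Hopf lattice killed by `p` through scalars of `𝔽_p`, then it acts trivially on `x`
or through the mod-`p` cyclotomic character.

Proof.  `μ` := a coordinate difference `e x - e 0` of maximal valuation.
* `v(μ) = 1`: `τ x - x = (n - 1) x` has all coordinate differences in `𝔪_P`; if `p ∤ n - 1` then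
  so does `x`: contradiction.  Hence `τ x = x`.
* `v(μ) < 1`: Newton: `e (k x) - e 0 = k μ + O(μ²)`.  The product of the `e (k x) - e 0` over
  `k ∈ 𝔽_p^×` is fixed by inertia and has valuation `v(μ)^(p-1)`, so `v(μ)^(p-1) ≤ v(p)`
  (`vg0_le`); Lemma A gives `≥`.  So `μ = w (ζ - 1)` with `w` a unit, and
  `n μ ≡ τ μ = τ(w) (ζ^a - 1) ≡ a μ` modulo `μ 𝔪_P`, i.e. `n ≡ a mod p`.
-/

set_option autoImplicit false
set_option linter.unusedSectionVars false
set_option linter.style.haveILetI false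

open Polynomial

noncomputable section

namespace Fermat.Agent.S56.H66

open Fermat.Agent.S56 Fermat.Agent.S56.H906 Fermat.Agent.S14.H894

section Basic

variable {p : ℕ} [Fact p.Prime] {M : Type} [AddCommGroup M] {act : GQ → M → M}
  {Λ : Subalgebra (Zp p) (M → Qb)} (P : ValuationSubring Qb)

/-- The Galois action on a Hopf lattice commutes with natural multiples. -/
theorem ft_act_nsmul (hΛ : IsHL p act Λ) (σ : GQ) (k : ℕ) (x : M) :
    act σ (k • x) = k • act σ x := by
  induction k with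
  | zero => rw [zero_nsmul, zero_nsmul]; exact hΛ.act_zero σ
  | succ k ih => rw [succ_nsmul, succ_nsmul, hΛ.act_add, ih]

/-- Natural multiples of a point killed by `p` depend only on the class mod `p`. -/
theorem ft_nsmul_congr {x : M} (hx : p • x = 0) {a b : ℕ} (h : (a : ZMod p) = b) :
    a • x = b • x := by
  have key : ∀ c : ℕ, c • x = (c % p) • x := by
    intro c
    conv_lhs => rw [← Nat.div_add_mod c p, add_nsmul, mul_comm, mul_nsmul', hx, nsmul_zero,
      zero_add]
  rw [key a, key b]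
  have := (ZMod.natCast_eq_natCast_iff' a b p).mp h
  rw [this]

/-- The set of points reducing to `0` is stable under addition. -/
theorem ft_red_add (hΛ : IsHL p act Λ) (hP : P.LiesOverPrime p) {y z : M}
    (hy : ∀ f ∈ Λ, P.valuation (f y - f 0) < 1) (hz : ∀ f ∈ Λ, P.valuation (f z - f 0) < 1) :
    ∀ f ∈ Λ, P.valuation (f (y + z) - f 0) < 1 := by
  intro f hf
  obtain ⟨n, a, b, ha, hb, hab⟩ := hΛ.comul_mem f hf
  have h0 := hab 0 0
  rw [add_zero] at h0
  rw [hab y z, h0, ← Finset.sum_sub_distrib]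
  refine Valuation.map_sum_lt _ one_ne_zero fun k _ => ?_
  have h1 : a k y * b k z - a k 0 * b k 0 =
      (a k y - a k 0) * b k z + a k 0 * (b k z - b k 0) := by ring
  rw [h1]
  refine Valuation.map_add_lt _ ?_ ?_
  · rw [map_mul]
    calc P.valuation (a k y - a k 0) * P.valuation (b k z)
        ≤ P.valuation (a k y - a k 0) * 1 := by
          gcongr
          exact (P.valuation_le_one_iff _).mpr (apply_mem P hΛ hP (hb k) z)
      _ = P.valuation (a k y - a k 0) := mul_one _
      _ < 1 := hy _ (ha k)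
  · rw [map_mul]
    calc P.valuation (a k 0) * P.valuation (b k z - b k 0)
        ≤ 1 * P.valuation (b k z - b k 0) := by
          gcongr
          exact (P.valuation_le_one_iff _).mpr (apply_mem P hΛ hP (ha k) 0)
      _ = P.valuation (b k z - b k 0) := one_mul _
      _ < 1 := hz _ (hb k)

/-- ... and under natural multiples. -/
theorem ft_red_nsmul (hΛ : IsHL p act Λ) (hP : P.LiesOverPrime p) {y : M}
    (hy : ∀ f ∈ Λ, P.valuation (f y - f 0) < 1) (k : ℕ) :
    ∀ f ∈ Λ, P.valuation (f (k • y) - f 0) < 1 := by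
  induction k with
  | zero =>
    intro f _
    rw [zero_nsmul, sub_self, map_zero]
    exact zero_lt_one
  | succ k ih =>
    rw [succ_nsmul]
    exact ft_red_add P hΛ hP ih hy

/-- For `τ` in the inertia group, `τ y - y` reduces to `0`. -/
theorem ft_red_inertia (hΛ : IsHL p act Λ) (hP : P.LiesOverPrime p) {τ : GQ}
    (hτ : τ ∈ P.inertiaSubgroupIn ℚ) (y : M) :
    ∀ f ∈ Λ, P.valuation (f (act τ y - y) - f 0) < 1 := by
  intro f hf
  obtain ⟨n, a, b, ha, hb, hab⟩ := hΛ.comul_mem f hf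
  have h0 := hab y (-y)
  rw [add_neg_cancel] at h0
  have h1 : act τ y - y = act τ y + -y := sub_eq_add_neg _ _
  rw [h1, hab (act τ y) (-y), h0, ← Finset.sum_sub_distrib]
  refine Valuation.map_sum_lt _ one_ne_zero fun k _ => ?_
  rw [← sub_mul, map_mul, hΛ.equivariant _ (ha k) τ y]
  have h1 : τ (a k y) - a k y ∈ P.nonunits :=
    ((Fermat.Agent.A2.IF.H9.mem_inertiaSubgroupIn_iff_forall P τ).mp hτ) _
      (apply_mem P hΛ hP (ha k) y)
  calc P.valuation (τ (a k y) - a k y) * P.valuation (b k (-y))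
      ≤ P.valuation (τ (a k y) - a k y) * 1 := by
        gcongr
        exact (P.valuation_le_one_iff _).mpr (apply_mem P hΛ hP (hb k) (-y))
    _ = P.valuation (τ (a k y) - a k y) := mul_one _
    _ < 1 := (P.mem_nonunits_iff).mp h1

/-- A coordinate difference of maximal valuation at a nonzero point. -/
theorem ft_exists_max (hΛ : IsHL p act Λ) (hP : P.LiesOverPrime p) {x : M} (hx : x ≠ 0) :
    ∃ e ∈ Λ, e x - e 0 ≠ 0 ∧ ∀ g ∈ Λ, P.valuation (g x - g 0) ≤ P.valuation (e x - e 0) := by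
  have hp : p.Prime := Fact.out
  set v := P.valuation with hv
  obtain ⟨f₀, hf₀, hne⟩ := hΛ.separates x 0 hx
  obtain ⟨n, e, he, -, -, hexp⟩ := Fermat.Agent.S19.H435.IsHopfLattice.exists_basis hΛ
  have hcoord : ∀ g ∈ Λ, ∃ c : Fin n → Zp p,
      g x - g 0 = ∑ i, algebraMap (Zp p) Qb (c i) * (e i x - e i 0) := by
    intro g hg
    obtain ⟨c, hc⟩ := hexp g hg
    refine ⟨c, ?_⟩
    have h1 : ∀ y : M, g y = ∑ i, algebraMap (Zp p) Qb (c i) * e i y := by
      intro y
      rw [hc, Finset.sum_apply]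
      refine Finset.sum_congr rfl fun i _ => ?_
      rw [Pi.smul_apply, Algebra.smul_def]
    rw [h1 x, h1 0, ← Finset.sum_sub_distrib]
    exact Finset.sum_congr rfl fun i _ => by ring
  have hex : ∃ i, e i x - e i 0 ≠ 0 := by
    by_contra hcon
    push Not at hcon
    obtain ⟨c, hc⟩ := hcoord f₀ hf₀
    apply hne
    rw [← sub_eq_zero, hc]
    exact Finset.sum_eq_zero fun i _ => by rw [hcon i, mul_zero]
  obtain ⟨i₁, hi₁⟩ := hex
  obtain ⟨i₀, -, hi₀⟩ := Finset.exists_max_image Finset.univ (fun i => v (e i x - e i 0))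
    ⟨i₁, Finset.mem_univ _⟩
  refine ⟨e i₀, he i₀, ?_, ?_⟩
  · intro h0
    have h1 := hi₀ i₁ (Finset.mem_univ _)
    rw [h0, map_zero] at h1
    exact hi₁ ((Valuation.zero_iff v).mp (le_antisymm h1 zero_le))
  · intro g hg
    obtain ⟨c, hc⟩ := hcoord g hg
    rw [hc]
    refine Valuation.map_sum_le v fun i _ => ?_
    rw [map_mul]
    calc v (algebraMap (Zp p) Qb (c i)) * v (e i x - e i 0)
        ≤ 1 * v (e i x - e i 0) := by
          gcongr
          exact (ValuationSubring.valuation_le_one_iff P _).mpr (zp_mem P hp hP (c i))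
      _ = v (e i x - e i 0) := one_mul _
      _ ≤ v (e i₀ x - e i₀ 0) := hi₀ i (Finset.mem_univ _)

/-- **Leading term** (Newton): `e (k x) - e 0 = k μ + O(μ²)`, `μ = e x - e 0` of maximal
valuation. -/
theorem ft_leading (hΛ : IsHL p act Λ) (hP : P.LiesOverPrime p) (x : M) {e : M → Qb}
    (he : e ∈ Λ) (hμ0 : e x - e 0 ≠ 0)
    (hmax : ∀ g ∈ Λ, P.valuation (g x - g 0) ≤ P.valuation (e x - e 0)) (k : ℕ) :
    P.valuation (e (k • x) - e 0 - (k : Qb) * (e x - e 0)) ≤ P.valuation (e x - e 0) ^ 2 := by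
  set v := P.valuation with hv
  set μ := e x - e 0 with hμdef
  have hμ1 : v μ ≤ 1 := by
    rw [ValuationSubring.valuation_le_one_iff]
    exact sub_mem (apply_mem P hΛ hP he x) (apply_mem P hΛ hP he 0)
  rcases k with _ | q
  · simp
  have hN := sum_choose_delta x (q + 1) e
  rw [Finset.sum_range_succ', Finset.sum_range_succ'] at hN
  simp only [Nat.choose_zero_right, Nat.cast_one, pow_zero, Module.End.one_apply, one_mul,
    zero_add, Nat.choose_one_right, pow_one] at hN
  have hd1 : delta x e 0 = μ := by rw [delta_apply, zero_add]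
  rw [hd1] at hN
  have hsum : e ((q + 1) • x) - e 0 - ((q + 1 : ℕ) : Qb) * μ =
      ∑ m ∈ Finset.range q,
        (((q + 1).choose (m + 1 + 1) : ℕ) : Qb) * (delta x ^ (m + 1 + 1)) e 0 := by
    rw [hN]; ring
  rw [hsum]
  refine Valuation.map_sum_le v fun m _ => ?_
  obtain ⟨G, hG, hG'⟩ := delta_pow_mem P hΛ x μ hμ0 hmax (m + 1 + 1) (subset_pspan P he)
  have hg1 : v (G 0) ≤ 1 :=
    (ValuationSubring.valuation_le_one_iff P _).mpr (pspan_apply_mem P hΛ hP hG 0)
  have hc1 : v ((((q + 1).choose (m + 1 + 1) : ℕ) : Qb)) ≤ 1 :=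
    (ValuationSubring.valuation_le_one_iff P _).mpr (natCast_mem P _)
  rw [hG', Pi.smul_apply, smul_eq_mul, map_mul, map_mul, map_pow]
  calc v ((((q + 1).choose (m + 1 + 1) : ℕ) : Qb)) * (v μ ^ (m + 1 + 1) * v (G 0))
      ≤ 1 * (v μ ^ (m + 1 + 1) * 1) := by gcongr
    _ = v μ ^ (m + 1 + 1) := by rw [one_mul, mul_one]
    _ = v μ ^ m * v μ ^ 2 := by rw [← pow_add]
    _ ≤ 1 * v μ ^ 2 := by
        gcongr
        exact pow_le_one₀ zero_le hμ1
    _ = v μ ^ 2 := one_mul _

/-- In the connected case, the coordinate differences of the nonzero multiples of `x` all have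
the valuation of `μ`. -/
theorem ft_val_multiple (hΛ : IsHL p act Λ) (hP : P.LiesOverPrime p) (x : M) {e : M → Qb}
    (he : e ∈ Λ) (hμ0 : e x - e 0 ≠ 0)
    (hmax : ∀ g ∈ Λ, P.valuation (g x - g 0) ≤ P.valuation (e x - e 0))
    (hμ1 : P.valuation (e x - e 0) < 1) {k : ℕ} (hk : ¬ p ∣ k) :
    P.valuation (e (k • x) - e 0) = P.valuation (e x - e 0) := by
  have hp : p.Prime := Fact.out
  have h1 := ft_leading P hΛ hP x he hμ0 hmax k
  set v := P.valuation with hv
  set μ := e x - e 0 with hμdef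
  have hk1 : v (k : Qb) = 1 := by
    have := valuation_intCast_eq_one P p hp hP (k : ℤ) (by exact_mod_cast hk)
    simpa using this
  have h2 : v ((k : Qb) * μ) = v μ := by rw [map_mul, hk1, one_mul]
  have hvμ : v μ ≠ 0 := (Valuation.ne_zero_iff _).mpr hμ0
  have h3 : v μ ^ 2 < v μ := by
    rw [pow_two]
    calc v μ * v μ < 1 * v μ := mul_lt_mul_of_pos_right hμ1 (zero_lt_iff.mpr hvμ)
      _ = v μ := one_mul _
  have h4 : e (k • x) - e 0 = (k : Qb) * μ + (e (k • x) - e 0 - (k : Qb) * μ) := by ring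
  rw [h4, Valuation.map_add_eq_of_lt_left, h2]
  rw [h2]
  exact lt_of_le_of_lt h1 h3

/-- The "norm" of a coordinate difference: the product over the nonzero multiples of `x`. -/
def ftNorm (p : ℕ) [Fact p.Prime] (e : M → Qb) (x : M) : Qb :=
  ∏ c : (ZMod p)ˣ, (e ((c : ZMod p).val • x) - e 0)

/-- If `τ` acts on `x` through a scalar, it fixes the norm. -/
theorem ftNorm_fixed (hΛ : IsHL p act Λ) {x : M} (hpx : p • x = 0) (hx : x ≠ 0) {e : M → Qb}
    (he : e ∈ Λ) {τ : GQ} {n : ℕ} (hτ : act τ x = n • x) :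
    τ (ftNorm p e x) = ftNorm p e x := by
  have hn0 : (n : ZMod p) ≠ 0 := by
    intro h0
    apply hx
    have h1 : n • x = 0 := by
      rw [ft_nsmul_congr hpx (b := 0) (by simpa using h0), zero_nsmul]
    rw [h1] at hτ
    have h2 := hΛ.act_inv_act τ x
    rw [hτ, hΛ.act_zero] at h2
    exact h2.symm
  set U : (ZMod p)ˣ := Units.mk0 (n : ZMod p) hn0 with hU
  unfold ftNorm
  rw [map_prod]
  rw [← Equiv.prod_comp (Equiv.mulRight U) (fun c : (ZMod p)ˣ => e ((c : ZMod p).val • x) - e 0)]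
  refine Finset.prod_congr rfl fun c _ => ?_
  rw [map_sub, ← hΛ.equivariant e he τ, ← hΛ.equivariant e he τ, hΛ.act_zero,
    ft_act_nsmul hΛ, hτ, ← mul_nsmul']
  congr 2
  refine ft_nsmul_congr hpx ?_
  rw [Equiv.coe_mulRight, Units.val_mul, hU, Units.val_mk0, Nat.cast_mul, ZMod.natCast_zmod_val,
    ZMod.natCast_zmod_val]

/-- The valuation of the norm in the connected case. -/
theorem ftNorm_valuation (hΛ : IsHL p act Λ) (hP : P.LiesOverPrime p) (x : M) {e : M → Qb}
    (he : e ∈ Λ) (hμ0 : e x - e 0 ≠ 0)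
    (hmax : ∀ g ∈ Λ, P.valuation (g x - g 0) ≤ P.valuation (e x - e 0))
    (hμ1 : P.valuation (e x - e 0) < 1) :
    P.valuation (ftNorm p e x) = P.valuation (e x - e 0) ^ (p - 1) := by
  have hp : p.Prime := Fact.out
  unfold ftNorm
  rw [map_prod]
  have h1 : ∀ c ∈ (Finset.univ : Finset (ZMod p)ˣ),
      P.valuation (e ((c : ZMod p).val • x) - e 0) = P.valuation (e x - e 0) := by
    intro c _
    refine ft_val_multiple P hΛ hP x he hμ0 hmax hμ1 ?_
    intro hdvd
    have h2 : (((c : ZMod p).val : ℕ) : ZMod p) = 0 := (ZMod.natCast_eq_zero_iff _ _).mpr hdvd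
    rw [ZMod.natCast_zmod_val] at h2
    exact c.ne_zero h2
  rw [Finset.prod_congr rfl h1, Finset.prod_const, Finset.card_univ, ZMod.card_units]

end Basic

/-- **(FT)** Raynaud's tame characters at level one: inertia acts on a scalar point of a flat
module killed by `p` trivially or through the cyclotomic character. -/
theorem flatTame : FlatTameStatement := by
  intro p _ hp2 M _ _ act Λ hΛ hpM P hP x hx hI
  have hp : p.Prime := Fact.out
  obtain ⟨e, he, hμ0, hmax⟩ := ft_exists_max P hΛ hP hx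
  set v := P.valuation with hv
  set μ := e x - e 0 with hμdef
  have hvμ : v μ ≠ 0 := (Valuation.ne_zero_iff _).mpr hμ0
  by_cases hμ1 : v μ < 1
  · -- the connected case: the cyclotomic character
    right
    have hN1 : v (ftNorm p e x) = v μ ^ (p - 1) := ftNorm_valuation P hΛ hP x he hμ0 hmax hμ1
    have hp1 : p - 1 ≠ 0 := by have := hp.two_le; omega
    have hNnon : ftNorm p e x ∈ P.nonunits := by
      rw [P.mem_nonunits_iff, ← hv, hN1]
      exact pow_lt_one₀ zero_le hμ1 hp1
    have hNfix : ∀ σ ∈ P.inertiaSubgroupIn ℚ, σ (ftNorm p e x) = ftNorm p e x := by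
      intro σ hσ
      obtain ⟨n, hn⟩ := hI σ hσ
      exact ftNorm_fixed hΛ (hpM x) hx he hn
    have hle : v μ ^ (p - 1) ≤ v (p : Qb) := by
      rw [← hN1]
      exact vg0_le p hp P hP _ hNnon hNfix
    have hge : v (p : Qb) ≤ v μ ^ (p - 1) := by
      by_contra hcon
      rw [not_le] at hcon
      exact hx (lemmaA p M act Λ hΛ P hP x μ (hpM x) hcon hmax)
    have heq : v μ ^ (p - 1) = v (p : Qb) := le_antisymm hle hge
    haveI : NeZero p := ⟨hp.ne_zero⟩
    obtain ⟨ζ, hζ⟩ := HasEnoughRootsOfUnity.exists_primitiveRoot Qb p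
    have hπ : v (ζ - 1) = v μ := by
      have h1 := valuation_natCast_eq_pow P p hp ζ hζ
      rw [← hv, ← heq] at h1
      exact ((pow_left_inj₀ zero_le zero_le hp1).mp h1).symm
    have hπ1 : v (ζ - 1) < 1 := valuation_zeta_sub_one_lt_one P p hp hP ζ hζ
    have hζ1 : ζ - 1 ≠ 0 :=
      (Valuation.ne_zero_iff v).mp (valuation_zeta_sub_one_ne_zero P p hp ζ hζ)
    have hμ2 : v μ ^ 2 < v μ := by
      rw [pow_two]
      calc v μ * v μ < 1 * v μ := mul_lt_mul_of_pos_right hμ1 (zero_lt_iff.mpr hvμ)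
        _ = v μ := one_mul _
    set w := μ / (ζ - 1) with hw
    have hwμ : μ = w * (ζ - 1) := by rw [hw]; field_simp
    have hvw : v w = 1 := by rw [hw, map_div₀, hπ, div_self hvμ]
    have hwP : w ∈ P := (P.valuation_le_one_iff _).mp hvw.le
    intro τ hτ a ha
    obtain ⟨n, hn⟩ := hI τ hτ
    rw [hn]
    refine ft_nsmul_congr (hpM x) ?_
    have hτμ : τ μ = e (n • x) - e 0 := by
      rw [hμdef, map_sub, ← hΛ.equivariant e he τ, ← hΛ.equivariant e he τ, hΛ.act_zero, hn]
    have hlead : v (τ μ - (n : Qb) * μ) ≤ v μ ^ 2 := by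
      rw [hτμ]
      exact ft_leading P hΛ hP x he hμ0 hmax n
    have hτw : v (τ w - w) < 1 :=
      (P.mem_nonunits_iff).mp
        (((Fermat.Agent.A2.IF.H9.mem_inertiaSubgroupIn_iff_forall P τ).mp hτ) w hwP)
    have hτζ : τ ζ = ζ ^ a := ha ζ hζ.pow_eq_one
    set S := ∑ j ∈ Finset.range a, ζ ^ j with hS
    have hSmul : ζ ^ a - 1 = S * (ζ - 1) := (geom_sum_mul ζ a).symm
    have hSa : v (S - (a : Qb)) < 1 := by
      have h1 : S - (a : Qb) = ∑ j ∈ Finset.range a, (ζ ^ j - 1) := by
        rw [Finset.sum_sub_distrib, Finset.sum_const, Finset.card_range, nsmul_eq_mul, mul_one]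
      rw [h1]
      refine Valuation.map_sum_lt v one_ne_zero fun j _ => ?_
      exact lt_of_le_of_lt (valuation_pow_sub_one_le P hp.ne_zero hζ.pow_eq_one j) hπ1
    have hS1 : v S ≤ 1 := by
      refine Valuation.map_sum_le v fun j _ => ?_
      rw [map_pow]
      exact pow_le_one₀ zero_le (valuation_le_one_of_pow_eq_one P hp.ne_zero hζ.pow_eq_one)
    have h5 : τ μ - (a : Qb) * μ = (ζ - 1) * ((τ w - w) * S + w * (S - a)) := by
      have h1 : τ μ = τ w * (ζ ^ a - 1) := by
        conv_lhs => rw [hwμ]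
        rw [map_mul, map_sub, map_one, hτζ]
      rw [h1, hSmul]
      conv_lhs => rw [hwμ]
      ring
    have h6 : v (τ μ - (a : Qb) * μ) < v μ := by
      rw [h5, map_mul, hπ]
      have h1 : v ((τ w - w) * S + w * (S - a)) < 1 := by
        refine Valuation.map_add_lt v ?_ ?_
        · rw [map_mul]
          calc v (τ w - w) * v S ≤ v (τ w - w) * 1 := by gcongr
            _ = v (τ w - w) := mul_one _
            _ < 1 := hτw
        · rw [map_mul, hvw, one_mul]
          exact hSa
      calc v μ * v ((τ w - w) * S + w * (S - a)) < v μ * 1 :=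
            mul_lt_mul_of_pos_left h1 (zero_lt_iff.mpr hvμ)
        _ = v μ := mul_one _
    have h7 : ((((n : ℤ) - (a : ℤ) : ℤ)) : Qb) * μ =
        (τ μ - (a : Qb) * μ) - (τ μ - (n : Qb) * μ) := by
      push_cast
      ring
    have h8 : v ((((n : ℤ) - (a : ℤ) : ℤ)) : Qb) < 1 := by
      by_contra hcon
      have h9 : v ((((n : ℤ) - (a : ℤ) : ℤ)) : Qb) = 1 :=
        le_antisymm (valuation_intCast_le_one P _) (not_lt.mp hcon)
      have h10 : v (((((n : ℤ) - (a : ℤ) : ℤ)) : Qb) * μ) = v μ := by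
        rw [map_mul, h9, one_mul]
      have h11 : v (((((n : ℤ) - (a : ℤ) : ℤ)) : Qb) * μ) < v μ := by
        rw [h7]
        exact Valuation.map_sub_lt v h6 (lt_of_le_of_lt hlead hμ2)
      exact absurd h10 h11.ne
    have h12 : (p : ℤ) ∣ (n : ℤ) - a := by
      by_contra hnd
      exact absurd (valuation_intCast_eq_one P p hp hP _ hnd) h8.ne
    have h13 := (ZMod.intCast_zmod_eq_zero_iff_dvd ((n : ℤ) - a) p).mpr h12
    push_cast at h13
    exact sub_eq_zero.mp h13
  · -- the étale case: trivial action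
    left
    intro τ hτ
    obtain ⟨n, hn⟩ := hI τ hτ
    rw [hn]
    by_contra hne
    have hn1 : (n : ZMod p) ≠ 1 := by
      intro h1
      apply hne
      rw [ft_nsmul_congr (hpM x) (b := 1) (by simpa using h1), one_nsmul]
    set u : ZMod p := (n : ZMod p) - 1 with hu
    have hu0 : u ≠ 0 := sub_ne_zero.mpr hn1
    set m := (u⁻¹).val with hm
    have hz : ∀ f ∈ Λ, v (f (act τ x - x) - f 0) < 1 := ft_red_inertia P hΛ hP hτ x
    have hmz := ft_red_nsmul P hΛ hP hz m
    have hxm : m • (act τ x - x) = x := by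
      rw [hn, nsmul_sub, ← mul_nsmul']
      have h1 : (m * n) • x = (m + 1) • x := by
        refine ft_nsmul_congr (hpM x) ?_
        push_cast
        rw [hm, ZMod.natCast_zmod_val]
        have h2 : (n : ZMod p) = u + 1 := by rw [hu]; ring
        rw [h2, mul_add, inv_mul_cancel₀ hu0, mul_one, add_comm]
      rw [h1, succ_nsmul]
      abel
    rw [hxm] at hmz
    exact hμ1 (hmz e he)

end Fermat.Agent.S56.H66

end
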