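import Fermat.Agent.S56.H66.VG0
import Fermat.Agent.S14.H894.Cyclo
import Fermat.Agent.A2.IF.H9.InertiaClosed

/-!
# S56 / FLAT-O, leaf FO-VG (helper66): valuation inputs, part 1

`A` a valuation subring of `ℚ̄` over the prime `p`, `I` its inertia group, `ζ` a primitive
`p`-th root of unity, `π = ζ - 1`, `I₁ = {σ ∈ I : σ ζ = ζ}`.

* `vg1` : an element of `ℚ̄` fixed by `I₁` has `A`-valuation in `v(π)^ℤ`;
* `vg1_le` : a non-unit of `A` fixed by `I₁` has valuation `≤ v(π)`.
-/

set_option autoImplicit false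
set_option linter.style.haveILetI false

open scoped Pointwise

namespace Fermat.Agent.S56.H66

open Polynomial Fermat.Agent.S14.H894

local notation "Qb" => AlgebraicClosure ℚ
local notation "GQ" => (AlgebraicClosure ℚ ≃ₐ[ℚ] AlgebraicClosure ℚ)

/-- The inertia field `ℚ̄^{I_A}`. -/
noncomputable def inertiaField (A : ValuationSubring Qb) : IntermediateField ℚ Qb :=
  IntermediateField.fixedField (A.inertiaSubgroupIn ℚ)

theorem mem_inertiaField_iff (A : ValuationSubring Qb) (x : Qb) :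
    x ∈ inertiaField A ↔ ∀ σ ∈ A.inertiaSubgroupIn ℚ, σ x = x :=
  IntermediateField.mem_fixedField_iff _ x

section

variable (A : ValuationSubring Qb) (p : ℕ) (hp : p.Prime) (hA : A.LiesOverPrime p)
  (ζ : Qb) (hζ : IsPrimitiveRoot ζ p)

include hp hA in
/-- (VG0) for the inertia field. -/
theorem exists_zpow_valuation_inertiaField (c : Qb) (hc : c ∈ inertiaField A) (hc0 : c ≠ 0) :
    ∃ m : ℤ, A.valuation c = A.valuation (p : Qb) ^ m :=
  vg0 p hp A hA c hc0 ((mem_inertiaField_iff A c).mp hc)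

/-- The monic polynomial of degree `p - 1` over the inertia field killing `ζ - 1`. -/
noncomputable def cycloShiftI : (inertiaField A)[X] :=
  (cyclotomic p (inertiaField A)).comp (X + C 1)

theorem cycloShiftI_monic : (cycloShiftI A p).Monic :=
  (cyclotomic.monic p _).comp_X_add_C 1

include hp in
theorem cycloShiftI_natDegree : (cycloShiftI A p).natDegree = p - 1 := by
  unfold cycloShiftI
  rw [natDegree_comp, natDegree_X_add_C, mul_one, natDegree_cyclotomic, Nat.totient_prime hp]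

include hp hζ in
theorem cycloShiftI_aeval : aeval (ζ - 1) (cycloShiftI A p) = 0 := by
  unfold cycloShiftI
  rw [aeval_comp]
  simp only [map_add, aeval_X, map_one, sub_add_cancel]
  rw [aeval_def, ← eval_map, map_cyclotomic]
  exact hζ.isRoot_cyclotomic hp.pos

/-- An element fixed by `I₁` lies in `ℚ̄^I(ζ - 1)`. -/
theorem mem_adjoinField_inertiaField (a : Qb)
    (hfix : ∀ σ ∈ A.inertiaSubgroupIn ℚ, σ ζ = ζ → σ a = a) :
    a ∈ adjoinField (inertiaField A) (ζ - 1) := by
  haveI : Algebra.IsAlgebraic ℚ Qb := AlgebraicClosure.isAlgebraic ℚ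
  haveI : IsAlgClosure ℚ Qb := ⟨inferInstance, inferInstance⟩
  haveI : Normal ℚ Qb := IsAlgClosure.normal ℚ Qb
  haveI : IsGalois ℚ Qb := isGalois_iff.mpr ⟨inferInstance, inferInstance⟩
  rw [← InfiniteGalois.fixedField_fixingSubgroup (adjoinField (inertiaField A) (ζ - 1)),
    IntermediateField.mem_fixedField_iff]
  intro σ hσ
  rw [mem_fixingSubgroup_adjoinField_iff] at hσ
  obtain ⟨hK, hπ⟩ := hσ
  have hI : σ ∈ A.inertiaSubgroupIn ℚ :=
    Fermat.Agent.A2.IF.H9.mem_inertiaSubgroupIn_of_fixes_fixedField A σ hK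
  refine hfix σ hI ?_
  have := congrArg (· + 1) hπ
  simpa using this

include hp hA hζ in
theorem cycloI_indep : ∀ k : ℕ, 0 < k → k < (cycloShiftI A p).natDegree →
    ∀ c ∈ inertiaField A, A.valuation (ζ - 1) ^ k ≠ A.valuation c := by
  intro k hk0 hk c hc heq
  rw [cycloShiftI_natDegree A p hp] at hk
  have hπ0 := valuation_zeta_sub_one_ne_zero A p hp ζ hζ
  have hπ1 := valuation_zeta_sub_one_lt_one A p hp hA ζ hζ
  by_cases hq : c = 0
  · subst hq
    rw [map_zero] at heq
    exact pow_ne_zero k hπ0 heq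
  · obtain ⟨m, hm⟩ := exists_zpow_valuation_inertiaField A p hp hA c hc hq
    rw [hm, valuation_natCast_eq_pow A p hp ζ hζ, ← zpow_natCast, ← zpow_natCast,
      ← zpow_mul] at heq
    have h1 := (zpow_right_strictAnti₀ (zero_lt_iff.mpr hπ0) hπ1).injective heq
    have h2 : ((p - 1 : ℕ) : ℤ) ∣ (k : ℤ) := ⟨m, h1⟩
    have h3 : (p - 1) ∣ k := by exact_mod_cast h2
    exact absurd (Nat.le_of_dvd hk0 h3) (not_le.mpr hk)

include hp hA hζ in
/-- **(VG1)** An element of `ℚ̄` fixed by `I₁ = {σ ∈ I : σ ζ = ζ}` has valuation in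
`v(ζ - 1)^ℤ`. -/
theorem vg1 (a : Qb) (ha : a ≠ 0)
    (hfix : ∀ σ ∈ A.inertiaSubgroupIn ℚ, σ ζ = ζ → σ a = a) :
    ∃ n : ℤ, A.valuation a = A.valuation (ζ - 1) ^ n := by
  obtain ⟨c, hc, rfl⟩ := exists_coeffs_of_mem_adjoinField (inertiaField A) (ζ - 1)
    (cycloShiftI A p) (cycloShiftI_monic A p) (cycloShiftI_aeval A p hp ζ hζ) a
    (mem_adjoinField_inertiaField A ζ a hfix)
  have hindep := cycloI_indep A p hp hA ζ hζ
  have hdist := distinct_terms A (inertiaField A) (ζ - 1) _ hindep c hc (ζ - 1) rfl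
  have hv := valuation_sum_eq_sup A.valuation _ _ hdist
  have hne : (Finset.range (cycloShiftI A p).natDegree).Nonempty := by
    rw [cycloShiftI_natDegree A p hp, Finset.nonempty_range_iff]
    have := hp.two_le
    omega
  obtain ⟨i, hi, his⟩ := Finset.exists_mem_eq_sup _ hne
    (fun i => A.valuation (c i * (ζ - 1) ^ i))
  rw [his] at hv
  rw [hv]
  have hci : c i ≠ 0 := by
    intro h0
    rw [h0, zero_mul, map_zero] at hv
    exact ha ((map_eq_zero _).mp hv)
  obtain ⟨m, hm⟩ := exists_zpow_valuation_inertiaField A p hp hA (c i) (hc i) hci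
  refine ⟨((p - 1 : ℕ) : ℤ) * m + i, ?_⟩
  have hπ0 := valuation_zeta_sub_one_ne_zero A p hp ζ hζ
  rw [map_mul, map_pow, hm, valuation_natCast_eq_pow A p hp ζ hζ,
    zpow_add₀ hπ0, zpow_mul, zpow_natCast, zpow_natCast]

end

end Fermat.Agent.S56.H66
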